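import Mathlib
import Fermat.Agent.DS.Conj.Main
import Fermat.Agent.DS.Conj.PrimE3

/-!
# DS, layer RAT: conjugates, integral structure and integral models on `Γ₁(N)` (unconditional)

Unconditional versions of the statements of `Fermat.Agent.DS.Conj.Main` (the hypothesis
`HasPrim (Gamma1 N)` is discharged by `Fermat.Agent.DS.Conj.hasPrim_Gamma1`).

* `exists_cuspForm_conj`, `exists_cuspForm_conj_qCoeff`: **Theorem A on `Γ₁(N)`**, all weights:
  the conjugate of the `q`-expansion of a cusp form by a ring homomorphism `ℂ →+* ℂ` is the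
  `q`-expansion of a cusp form;
* `exists_integral_spanning`: `S_k(Γ₁(N))` is spanned by finitely many forms with integral
  `q`-expansion;
* `exists_integral_model`: for `f` satisfying the hypotheses of the frozen statement S48, a cusp
  form `h` with `a_1 = 1`, the same `a_p` (`p ∤ N`), the same Hecke relations, and
  `D * a_n(h)` an algebraic integer for all `n`;
* `isIntegral_qCoeff_prime`: the `a_p` (`p ∤ N`) are algebraic integers;
* `eigenRing_fg`: `ℤ[ε][a_p : p ∤ N]` is a finitely generated abelian group;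
* `exists_finset_conj`: finitely many ring endomorphisms of `ℂ` induce all conjugates on that
  ring;
* `exists_conj_forms`: the corresponding finitely many conjugate eigenforms.
-/

set_option autoImplicit false

open UpperHalfPlane ModularForm CongruenceSubgroup ModularFormClass
open scoped MatrixGroups Manifold

namespace Fermat.Agent.DS.Rat

open Fermat.Agent.DS.Conj

variable {N : ℕ} [NeZero N]

/-- **Theorem A on `Γ₁(N)`**: conjugates of cusp forms are cusp forms. -/
theorem exists_cuspForm_conj (s : ℂ →+* ℂ) {k : ℤ} (f : CuspForm (Gamma1 N) k) :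
    ∃ g : CuspForm (Gamma1 N) k, qExpansion 1 g = (qExpansion 1 f).map s :=
  exists_cuspForm_conj_Gamma1 (hasPrim_Gamma1 N) s f

/-- Theorem A on `Γ₁(N)`, coefficientwise. -/
theorem exists_cuspForm_conj_qCoeff (s : ℂ →+* ℂ) {k : ℤ} (f : CuspForm (Gamma1 N) k) :
    ∃ g : CuspForm (Gamma1 N) k, ∀ n, qCoeff g n = s (qCoeff f n) :=
  Conj.exists_cuspForm_conj_qCoeff (hasPrim_Gamma1 N) s f

variable (N) in
/-- **Integral spanning family** of `S_k(Γ₁(N))`. -/
theorem exists_integral_spanning (k : ℤ) :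
    ∃ (d : ℕ) (e : Fin d → CuspForm (Gamma1 N) k),
      Submodule.span ℂ (Set.range e) = ⊤ ∧
      ∀ i n, ∃ m : ℤ, (qExpansion 1 (e i)).coeff n = (m : ℂ) :=
  exists_integral_spanning_Gamma1 (hasPrim_Gamma1 N) k

/-- **Integral model**: for `f` as in the frozen statement S48 (any weight), there is a cusp
form `h` with `a_1(h) = 1`, `a_p(h) = a_p(f)` for all primes `p ∤ N`, satisfying the same Hecke
relations, and a positive integer `D` such that `D * a_n(h)` is an algebraic integer for every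
`n`. -/
theorem exists_integral_model (ε : DirichletCharacter ℂ N) {k : ℤ} (f : CuspForm (Gamma1 N) k)
    (hf₁ : qCoeff f 1 = 1)
    (hT : ∀ p : ℕ, p.Prime → ¬ p ∣ N → ∀ n : ℕ,
        qCoeff f (p * n) + ε (p : ZMod N) * (if p ∣ n then qCoeff f (n / p) else 0) =
          qCoeff f p * qCoeff f n) :
    ∃ (h : CuspForm (Gamma1 N) k) (D : ℕ), 0 < D ∧ qCoeff h 1 = 1 ∧
      (∀ p : ℕ, p.Prime → ¬ p ∣ N → qCoeff h p = qCoeff f p) ∧
      (∀ p : ℕ, p.Prime → ¬ p ∣ N → ∀ n : ℕ,
        qCoeff h (p * n) + ε (p : ZMod N) * (if p ∣ n then qCoeff h (n / p) else 0) =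
          qCoeff h p * qCoeff h n) ∧
      ∀ n, IsIntegral ℤ ((D : ℂ) * qCoeff h n) :=
  Conj.exists_integral_model (hasPrim_Gamma1 N) ε f hf₁ hT

/-- Integral model, with the coefficient field: moreover all `q`-coefficients of the model lie
in the field `ℚ(ε, a_p : p ∤ N)`. -/
theorem exists_integral_model' (ε : DirichletCharacter ℂ N) {k : ℤ} (f : CuspForm (Gamma1 N) k)
    (hf : IsEigenSeq N ε (qCoeff f)) :
    ∃ (h : CuspForm (Gamma1 N) k) (D : ℕ), 0 < D ∧ IsEigenSeq N ε (qCoeff h) ∧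
      (∀ p : ℕ, p.Prime → ¬ p ∣ N → qCoeff h p = qCoeff f p) ∧
      (∀ n, IsIntegral ℤ ((D : ℂ) * qCoeff h n)) ∧
      ∀ n, qCoeff h n ∈ IntermediateField.adjoin ℚ
        ((charRing ε : Set ℂ) ∪ (qCoeff f) '' goodPrimes N) :=
  (eigen_package_Gamma1 (hasPrim_Gamma1 N) ε f hf).2

/-- The ring `ℤ[ε][a_p : p ∤ N]` of an eigenform is a finitely generated abelian group. -/
theorem eigenRing_fg (ε : DirichletCharacter ℂ N) {k : ℤ} (f : CuspForm (Gamma1 N) k)
    (hf : IsEigenSeq N ε (qCoeff f)) : (eigenRing N ε (qCoeff f)).toSubmodule.FG :=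
  Conj.eigenRing_fg (hasPrim_Gamma1 N) ε f hf

/-- The eigenvalues `a_p` (`p ∤ N`) are algebraic integers. -/
theorem isIntegral_qCoeff_prime (ε : DirichletCharacter ℂ N) {k : ℤ} (f : CuspForm (Gamma1 N) k)
    (hf₁ : qCoeff f 1 = 1)
    (hT : ∀ p : ℕ, p.Prime → ¬ p ∣ N → ∀ n : ℕ,
        qCoeff f (p * n) + ε (p : ZMod N) * (if p ∣ n then qCoeff f (n / p) else 0) =
          qCoeff f p * qCoeff f n) {p : ℕ} (hp : p.Prime) (hpN : ¬ p ∣ N) :
    IsIntegral ℤ (qCoeff f p) :=
  Conj.isIntegral_qCoeff_prime (hasPrim_Gamma1 N) ε f ⟨hf₁, hT⟩ hp hpN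

/-- **Finitely many conjugates**: a finite set `T` of ring endomorphisms of `ℂ` such that every
ring endomorphism of `ℂ` agrees with a member of `T` on the ring `ℤ[ε][a_p : p ∤ N]`. -/
theorem exists_finset_conj (ε : DirichletCharacter ℂ N) {k : ℤ} (f : CuspForm (Gamma1 N) k)
    (hf : IsEigenSeq N ε (qCoeff f)) :
    ∃ T : Finset (ℂ →+* ℂ), ∀ t : ℂ →+* ℂ, ∃ t' ∈ T,
      ∀ z ∈ eigenRing N ε (qCoeff f), t z = t' z :=
  Conj.exists_finset_conj (hasPrim_Gamma1 N) ε f hf

/-- **The finitely many conjugate eigenforms**: a finite family of cusp forms `F j` and ring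
endomorphisms `s j` of `ℂ` with `a_n(F j) = s j (a_n(f))` for all `n`, each `F j` an
eigen-sequence for the conjugate character `s j ∘ ε`, such that every ring endomorphism `t` of
`ℂ` agrees with some `s j` on all `a_p(f)` (`p ∤ N`) and on all values of `ε`. -/
theorem exists_conj_forms (ε : DirichletCharacter ℂ N) {k : ℤ} (f : CuspForm (Gamma1 N) k)
    (hf : IsEigenSeq N ε (qCoeff f)) :
    ∃ (r : ℕ) (s : Fin r → ℂ →+* ℂ) (F : Fin r → CuspForm (Gamma1 N) k),
      (∀ j n, qCoeff (F j) n = s j (qCoeff f n)) ∧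
      (∀ j, IsEigenSeq N (ε.ringHomComp (s j)) (qCoeff (F j))) ∧
      ∀ t : ℂ →+* ℂ, ∃ j, (∀ p : ℕ, p.Prime → ¬ p ∣ N → t (qCoeff f p) = s j (qCoeff f p)) ∧
        ∀ x : ZMod N, t (ε x) = s j (ε x) := by
  classical
  obtain ⟨T, hT⟩ := exists_finset_conj ε f hf
  let e : Fin T.card ≃ T := T.equivFin.symm
  choose F hF using fun j : Fin T.card => exists_cuspForm_conj_qCoeff ((e j : ℂ →+* ℂ)) f
  refine ⟨T.card, fun j => (e j : ℂ →+* ℂ), F, hF, fun j => ?_, fun t => ?_⟩
  · have h1 := conj_isEigenSeq ε (qCoeff f) (e j : ℂ →+* ℂ) hf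
    have h2 : (fun n => qCoeff (⇑(F j)) n) = fun n => (e j : ℂ →+* ℂ) (qCoeff f n) :=
      funext (hF j)
    show IsEigenSeq N _ (fun n => qCoeff (⇑(F j)) n)
    rw [h2]
    exact h1
  · obtain ⟨t', ht', htt'⟩ := hT t
    refine ⟨e.symm ⟨t', ht'⟩, fun p hp hpN => ?_, fun x => ?_⟩
    · show t (qCoeff (⇑f) p) = ((e (e.symm ⟨t', ht'⟩) : T) : ℂ →+* ℂ) (qCoeff (⇑f) p)
      rw [Equiv.apply_symm_apply]
      exact htt' _ (coeff_mem_eigenRing ε _ hp hpN)
    · show t (ε x) = ((e (e.symm ⟨t', ht'⟩) : T) : ℂ →+* ℂ) (ε x)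
      rw [Equiv.apply_symm_apply]
      exact htt' _ (char_mem_eigenRing ε _ x)

end Fermat.Agent.DS.Rat
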