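import Mathlib
import Fermat.Agent.DS.Density
import Fermat.Agent.DS.Rat.Main

/-!
# DS, step DENS for the form of the frozen statement S48 (unconditional)

For a weight one cusp form `f` on `Γ₁(N)` satisfying the hypotheses of S48 and every `η > 0`
there is a finite set `Y` of algebraic integers such that the primes `p ∤ N` with `a_p(f) ∉ Y`
have upper Dirichlet density at most `η` (finite-sum form).

This is `Fermat.Agent.DS.dens_of_heckeRelation` (Rankin + Northcott) fed with the integrality of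
the `a_p` and the finitely many conjugate eigenforms of `Fermat.Agent.DS.Rat`.
-/

set_option autoImplicit false

open UpperHalfPlane ModularForm CongruenceSubgroup ModularFormClass
open scoped MatrixGroups

namespace Fermat.Agent.DS.Rat

open Fermat.Agent.DS.Conj

/-- **DENS (H2)** for the eigenform of S48: for every `η > 0` there are a finite set `Y` of
algebraic integers and a constant `C` with `∑_{p ∈ T} p^(-s) ≤ η log(1/(s-1)) + C` for all
`1 < s ≤ 2` and all finite sets `T` of primes `p ∤ N` with `a_p ∉ Y`. -/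
theorem density_of_eigenform {N : ℕ} [NeZero N] (ε : DirichletCharacter ℂ N)
    (f : CuspForm (Gamma1 N) 1) (hf₁ : qCoeff f 1 = 1)
    (hT : ∀ p : ℕ, p.Prime → ¬ p ∣ N → ∀ n : ℕ,
        qCoeff f (p * n) + ε (p : ZMod N) * (if p ∣ n then qCoeff f (n / p) else 0) =
          qCoeff f p * qCoeff f n) {eta : ℝ} (heta : 0 < eta) :
    ∃ (Y : Finset ℂ) (C : ℝ), (∀ y ∈ Y, IsIntegral ℤ y) ∧ ∀ s : ℝ, 1 < s → s ≤ 2 →
      ∀ T : Finset ℕ, (∀ p ∈ T, p.Prime ∧ ¬ p ∣ N ∧ qCoeff f p ∉ Y) →
        ∑ p ∈ T, (p : ℝ) ^ (-s) ≤ eta * Real.log (1 / (s - 1)) + C := by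
  obtain ⟨r, s, F, hF, -, hall⟩ := exists_conj_forms ε f ⟨hf₁, hT⟩
  exact Fermat.Agent.DS.dens_of_heckeRelation (fun n => qCoeff f n)
    (fun p => ε (p : ZMod N)) hf₁ hT
    (fun p hp hpN => isIntegral_qCoeff_prime ε f hf₁ hT hp hpN)
    ⟨r, F, s, hF, fun t => by
      obtain ⟨j, hj, -⟩ := hall t
      exact ⟨j, hj⟩⟩ heta

end Fermat.Agent.DS.Rat
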